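import Mathlib
import Fermat.Prelude.Def_ModularForm_HeckeOperator
import Fermat.Agent.S23.Defs
import Fermat.Agent.S23.FormT

/-!
# T16 / EIS: the dilated Eisenstein series `E₂(Nτ)` and its transformation laws
-/

set_option autoImplicit false

open UpperHalfPlane ModularForm EisensteinSeries Complex
open scoped MatrixGroups ModularForm Manifold Real

namespace Fermat.Agent.S16.Eis

open Matrix Matrix.SpecialLinearGroup

/-- The constant `1 / (2 ζ(2))` of the transformation law of `E₂`. -/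
noncomputable def kap : ℂ := 1 / (2 * riemannZeta 2)

/-- Pointwise form of the transformation law of `E₂`. -/
theorem E2_smul (γ : SL(2, ℤ)) (τ : ℍ) :
    E2 (γ • τ) = denom γ τ ^ 2 * (E2 τ - kap * D2 γ τ) := by
  have h := congrFun (E2_slash_action γ) τ
  rw [ModularForm.SL_slash_apply, Pi.sub_apply, Pi.smul_apply, smul_eq_mul] at h
  have hd : denom γ τ ≠ 0 := denom_ne_zero _ τ
  unfold kap
  rw [← h, _root_.zpow_neg, mul_comm (E2 (γ • τ)), ← mul_assoc, zpow_ofNat,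
    mul_inv_cancel₀ (pow_ne_zero 2 hd), one_mul]

/-- `E₂(Nτ)`. -/
noncomputable def E2N (N : ℕ) : ℍ → ℂ := fun τ => E2 (heckeDiagMatrix N • τ)

theorem mdiff_E2N (N : ℕ) [NeZero N] : MDiff (E2N N) := by
  have hN : N ≠ 0 := NeZero.ne N
  have h1 : MDiff ((E2 : ℍ → ℂ) ∣[(2 : ℤ)] heckeDiagMatrix N) :=
    E2_mdifferentiable.slash 2 _
  have h2 : E2N N = ((N : ℂ) ^ ((2 : ℤ) - 1))⁻¹ • ((E2 : ℍ → ℂ) ∣[(2 : ℤ)] heckeDiagMatrix N) := by
    funext τ
    rw [Pi.smul_apply, slash_heckeDiagMatrix_apply 2 hN, smul_eq_mul, ← mul_assoc,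
      inv_mul_cancel₀ (zpow_ne_zero _ (by exact_mod_cast hN)), one_mul]
    rfl
  rw [h2]
  exact h1.const_smul _

/-- The entries of `δ` in `α γ = δ α`. -/
theorem entries_of_heckeDiag_mul {N : ℕ} (hN : N ≠ 0) {γ δ : SL(2, ℤ)}
    (h : heckeDiagMatrix N * mapGL ℝ γ = mapGL ℝ δ * heckeDiagMatrix N) :
    (γ 1 0 : ℤ) = N * δ 1 0 ∧ γ 1 1 = δ 1 1 := by
  have h10 := congrArg (fun M : GL (Fin 2) ℝ => (M : Matrix (Fin 2) (Fin 2) ℝ) 1 0) h
  have h11 := congrArg (fun M : GL (Fin 2) ℝ => (M : Matrix (Fin 2) (Fin 2) ℝ) 1 1) h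
  simp only [Matrix.GeneralLinearGroup.coe_mul, val_heckeDiagMatrix hN] at h10 h11
  simp [Matrix.mul_apply, Fin.sum_univ_two, mapGL] at h10 h11
  constructor
  · have : ((γ 1 0 : ℤ) : ℝ) = ((N * δ 1 0 : ℤ) : ℝ) := by
      push_cast
      linarith
    exact_mod_cast this
  · exact_mod_cast h11

/-- The transformation law of `E₂(Nτ)` under `Γ₀(N)`. -/
theorem E2N_smul (N : ℕ) [NeZero N] {γ : SL(2, ℤ)} (hγ : γ ∈ CongruenceSubgroup.Gamma0 N)
    (τ : ℍ) :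
    E2N N (γ • τ) = denom γ τ ^ 2 * (E2N N τ - kap / N * D2 γ τ) := by
  have hN : N ≠ 0 := NeZero.ne N
  have hNC : (N : ℂ) ≠ 0 := by exact_mod_cast hN
  obtain ⟨δ, hδ⟩ := Fermat.Agent.S23.FormT.heckeDiag_mul_mem N γ hγ
  obtain ⟨e10, e11⟩ := entries_of_heckeDiag_mul hN hδ
  have hpt : heckeDiagMatrix N • (γ • τ) = δ • (heckeDiagMatrix N • τ) := by
    have h1 : heckeDiagMatrix N • (γ • τ) = (heckeDiagMatrix N * mapGL ℝ γ) • τ := by
      rw [mul_smul]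
      rfl
    have h2 : δ • (heckeDiagMatrix N • τ) = (mapGL ℝ δ * heckeDiagMatrix N) • τ := by
      rw [mul_smul]
      rfl
    rw [h1, h2, hδ]
  have hden : denom δ ((heckeDiagMatrix N • τ : ℍ) : ℂ) = denom γ τ := by
    rw [ModularGroup.denom_apply, ModularGroup.denom_apply, coe_heckeDiagMatrix_smul hN, e10, e11]
    push_cast
    ring
  unfold E2N
  rw [hpt, E2_smul, hden]
  congr 2
  unfold D2
  rw [hden, e10]
  push_cast
  field_simp

/-! ### The point `τ / N` and the action of `S` -/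

/-- `τ / N` as a point of the upper half plane. -/
noncomputable def divN (N : ℕ) (τ : ℍ) : ℍ := (heckeDiagMatrix N)⁻¹ • τ

theorem heckeDiag_smul_divN (N : ℕ) (τ : ℍ) : heckeDiagMatrix N • divN N τ = τ := by
  unfold divN
  rw [smul_inv_smul]

theorem coe_divN {N : ℕ} (hN : N ≠ 0) (τ : ℍ) : ((divN N τ : ℍ) : ℂ) = (τ : ℂ) / N := by
  have hNC : (N : ℂ) ≠ 0 := by exact_mod_cast hN
  have h := coe_heckeDiagMatrix_smul hN (divN N τ)
  rw [heckeDiag_smul_divN] at h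
  rw [h]
  field_simp

theorem im_divN {N : ℕ} (hN : N ≠ 0) (τ : ℍ) : (divN N τ).im = τ.im / N := by
  have h := congrArg Complex.im (coe_divN hN τ)
  rw [UpperHalfPlane.coe_im] at h
  rw [h]
  have : ((τ : ℂ) / (N : ℂ)) = (τ : ℂ) / ((N : ℝ) : ℂ) := by norm_cast
  rw [this, Complex.div_ofReal_im]
  rfl

theorem im_heckeDiag_smul {N : ℕ} (hN : N ≠ 0) (τ : ℍ) :
    (heckeDiagMatrix N • τ).im = N * τ.im := by
  have h := congrArg Complex.im (coe_heckeDiagMatrix_smul hN τ)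
  rw [UpperHalfPlane.coe_im] at h
  rw [h]
  have : ((N : ℂ) * (τ : ℂ)) = ((N : ℝ) : ℂ) * (τ : ℂ) := by norm_cast
  rw [this, Complex.im_ofReal_mul]
  rfl

theorem heckeDiag_smul_S_smul {N : ℕ} (hN : N ≠ 0) (τ : ℍ) :
    heckeDiagMatrix N • (ModularGroup.S • τ) = ModularGroup.S • divN N τ := by
  have hNC : (N : ℂ) ≠ 0 := by exact_mod_cast hN
  apply UpperHalfPlane.ext
  rw [coe_heckeDiagMatrix_smul hN, UpperHalfPlane.modular_S_smul, UpperHalfPlane.modular_S_smul]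
  show (N : ℂ) * (-(τ : ℂ))⁻¹ = (-((divN N τ : ℍ) : ℂ))⁻¹
  rw [coe_divN hN]
  have hτ : (τ : ℂ) ≠ 0 := ne_zero τ
  field_simp

theorem denom_S (τ : ℍ) : denom ModularGroup.S τ = τ := by
  rw [ModularGroup.denom_apply]
  simp [ModularGroup.S]

/-- `E₂(-1/τ) = τ² E₂(τ) - κ · 2πi τ`. -/
theorem E2_S_smul (τ : ℍ) :
    E2 (ModularGroup.S • τ) = (τ : ℂ) ^ 2 * E2 τ - kap * (2 * π * Complex.I) * τ := by
  have hτ : (τ : ℂ) ≠ 0 := ne_zero τ
  rw [E2_smul, denom_S, D2_S]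
  field_simp

/-- `E₂(N · (-1/τ)) = (τ/N)² E₂(τ/N) - κ · 2πi τ / N`. -/
theorem E2N_S_smul {N : ℕ} (hN : N ≠ 0) (τ : ℍ) :
    E2N N (ModularGroup.S • τ) =
      ((τ : ℂ) / N) ^ 2 * E2 (divN N τ) - kap * (2 * π * Complex.I) * ((τ : ℂ) / N) := by
  unfold E2N
  rw [heckeDiag_smul_S_smul hN, E2_S_smul, coe_divN hN]

end Fermat.Agent.S16.Eis
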