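import Mathlib
import Fermat.Agent.S23.Defs
import Fermat.Agent.S23.Basic
import Fermat.Agent.S16.Eis.Dilate

/-!
# T16 / EIS: the weight-2 Eisenstein series `(N E₂(Nτ) - E₂(τ)) / 24` of level `Γ₀(N)`

Invariance under `Γ₀(N)` (any `N ≥ 1`), the expansion at the cusp `0`, and, for `N = p` prime,
the modular form `eis p : ModularForm (G0 p) 2`.
-/

set_option autoImplicit false

open UpperHalfPlane ModularForm EisensteinSeries Complex Filter Topology
open scoped MatrixGroups ModularForm Manifold Real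
open Fermat.Agent.S23

namespace Fermat.Agent.S16.Eis

/-- The function `(N E₂(Nτ) - E₂(τ)) / 24`. -/
noncomputable def eisFun (N : ℕ) : ℍ → ℂ := fun τ => ((N : ℂ) * E2N N τ - E2 τ) / 24

/-- The expansion of `eisFun` at the cusp `0`: `(E₂(τ/N)/N - E₂(τ)) / 24`. -/
noncomputable def eisS (N : ℕ) : ℍ → ℂ := fun τ => (E2 (divN N τ) / (N : ℂ) - E2 τ) / 24

theorem mdiff_eisFun (N : ℕ) [NeZero N] : MDiff (eisFun N) := by
  have h1 : MDiff (fun τ : ℍ => (N : ℂ) * E2N N τ) :=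
    (mdifferentiable_const (c := (N : ℂ))).mul (mdiff_E2N N)
  have h2 : MDiff (fun τ : ℍ => (N : ℂ) * E2N N τ - E2 τ) := h1.sub E2_mdifferentiable
  have h3 : eisFun N = (24 : ℂ)⁻¹ • (fun τ : ℍ => (N : ℂ) * E2N N τ - E2 τ) := by
    funext τ
    simp only [eisFun, Pi.smul_apply, smul_eq_mul]
    ring
  rw [h3]
  exact h2.const_smul _

theorem eisFun_smul (N : ℕ) [NeZero N] {γ : SL(2, ℤ)} (hγ : γ ∈ CongruenceSubgroup.Gamma0 N)
    (τ : ℍ) : eisFun N (γ • τ) = denom γ τ ^ 2 * eisFun N τ := by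
  have hNC : (N : ℂ) ≠ 0 := by exact_mod_cast NeZero.ne N
  unfold eisFun
  rw [E2N_smul N hγ, E2_smul]
  field_simp
  ring

theorem eisFun_slash (N : ℕ) [NeZero N] {γ : SL(2, ℤ)} (hγ : γ ∈ CongruenceSubgroup.Gamma0 N) :
    eisFun N ∣[(2 : ℤ)] γ = eisFun N := by
  funext τ
  have hd : denom γ τ ≠ 0 := denom_ne_zero _ τ
  rw [ModularForm.SL_slash_apply, eisFun_smul N hγ, mul_comm, ← mul_assoc, zpow_neg, zpow_ofNat,
    inv_mul_cancel₀ (pow_ne_zero 2 hd), one_mul]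

theorem eisFun_S_smul (N : ℕ) [NeZero N] (τ : ℍ) :
    eisFun N (ModularGroup.S • τ) = (τ : ℂ) ^ 2 * eisS N τ := by
  have hNC : (N : ℂ) ≠ 0 := by exact_mod_cast NeZero.ne N
  unfold eisFun eisS
  rw [E2N_S_smul (NeZero.ne N), E2_S_smul]
  field_simp
  ring

theorem eisFun_slash_S (N : ℕ) [NeZero N] : eisFun N ∣[(2 : ℤ)] ModularGroup.S = eisS N := by
  funext τ
  have hτ : (τ : ℂ) ≠ 0 := ne_zero τ
  rw [ModularForm.SL_slash_apply, eisFun_S_smul, denom_S, mul_comm, ← mul_assoc, zpow_neg,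
    zpow_ofNat, inv_mul_cancel₀ (pow_ne_zero 2 hτ), one_mul]

/-! ### Boundedness at `i∞` -/

theorem isBoundedAtImInfty_E2N (N : ℕ) [NeZero N] : IsBoundedAtImInfty (E2N N) := by
  have h := isBoundedAtImInfty_E2
  rw [UpperHalfPlane.isBoundedAtImInfty_iff] at h ⊢
  obtain ⟨M, A, hA⟩ := h
  refine ⟨M, max A 0, fun τ hτ => hA _ ?_⟩
  rw [im_heckeDiag_smul (NeZero.ne N)]
  have hN1 : (1 : ℝ) ≤ N := by exact_mod_cast Nat.one_le_iff_ne_zero.mpr (NeZero.ne N)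
  have h1 : A ≤ τ.im := (le_max_left _ _).trans hτ
  have h2 : 0 ≤ τ.im := τ.im_pos.le
  nlinarith

theorem isBoundedAtImInfty_E2_divN (N : ℕ) [NeZero N] :
    IsBoundedAtImInfty (fun τ : ℍ => E2 (divN N τ)) := by
  have h := isBoundedAtImInfty_E2
  rw [UpperHalfPlane.isBoundedAtImInfty_iff] at h ⊢
  obtain ⟨M, A, hA⟩ := h
  have hN0 : (0 : ℝ) < N := by exact_mod_cast Nat.pos_of_ne_zero (NeZero.ne N)
  refine ⟨M, N * A, fun τ hτ => hA _ ?_⟩
  rw [im_divN (NeZero.ne N), le_div_iff₀ hN0]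
  linarith

theorem isBoundedAtImInfty_eisFun (N : ℕ) [NeZero N] : IsBoundedAtImInfty (eisFun N) := by
  have h1 : IsBoundedAtImInfty (E2N N) := isBoundedAtImInfty_E2N N
  have h2 : IsBoundedAtImInfty E2 := isBoundedAtImInfty_E2
  unfold IsBoundedAtImInfty BoundedAtFilter at h1 h2 ⊢
  have h3 := ((h1.const_mul_left (N : ℂ)).sub h2).const_mul_left ((24 : ℂ)⁻¹)
  refine h3.congr_left fun τ => ?_
  simp only [eisFun]
  ring

theorem isBoundedAtImInfty_eisS (N : ℕ) [NeZero N] : IsBoundedAtImInfty (eisS N) := by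
  have h1 : IsBoundedAtImInfty (fun τ : ℍ => E2 (divN N τ)) := isBoundedAtImInfty_E2_divN N
  have h2 : IsBoundedAtImInfty E2 := isBoundedAtImInfty_E2
  unfold IsBoundedAtImInfty BoundedAtFilter at h1 h2 ⊢
  have h3 := ((h1.const_mul_left ((N : ℂ)⁻¹)).sub h2).const_mul_left ((24 : ℂ)⁻¹)
  refine h3.congr_left fun τ => ?_
  simp only [eisS]
  ring

theorem slash_T_zpow_apply (k : ℤ) (f : ℍ → ℂ) (j : ℤ) (τ : ℍ) :
    (f ∣[k] (ModularGroup.T ^ j)) τ = f ((j : ℝ) +ᵥ τ) := by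
  rw [ModularForm.SL_slash_apply, UpperHalfPlane.modular_T_zpow_smul]
  have : denom (ModularGroup.T ^ j : SL(2, ℤ)) τ = 1 := by
    rw [ModularGroup.denom_apply, ModularGroup.coe_T_zpow]
    simp
  rw [this, one_zpow, mul_one]

theorem isBoundedAtImInfty_slash_T_zpow (k : ℤ) {f : ℍ → ℂ} (hf : IsBoundedAtImInfty f)
    (j : ℤ) : IsBoundedAtImInfty (f ∣[k] (ModularGroup.T ^ j)) := by
  rw [UpperHalfPlane.isBoundedAtImInfty_iff] at hf ⊢
  obtain ⟨M, A, h⟩ := hf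
  refine ⟨M, A, fun τ hτ => ?_⟩
  rw [slash_T_zpow_apply]
  exact h _ (by rwa [vadd_im])

/-! ### Cosets of `Γ₀(p)` in `SL(2, ℤ)`, `p` prime -/

theorem exists_coset_rep (p : ℕ) [Fact p.Prime] (γ : SL(2, ℤ)) :
    γ ∈ CongruenceSubgroup.Gamma0 p ∨
      ∃ g ∈ CongruenceSubgroup.Gamma0 p, ∃ j : ℤ, γ = g * ModularGroup.S * ModularGroup.T ^ j := by
  by_cases h0 : ((γ 1 0 : ℤ) : ZMod p) = 0
  · left
    rw [CongruenceSubgroup.Gamma0_mem]
    exact h0
  · right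
    set j : ℤ := ((((γ 1 1 : ℤ) : ZMod p) * ((γ 1 0 : ℤ) : ZMod p)⁻¹).val : ℤ) with hj
    have hjp : ((j : ℤ) : ZMod p) = ((γ 1 1 : ℤ) : ZMod p) * ((γ 1 0 : ℤ) : ZMod p)⁻¹ := by
      rw [hj]
      simp
    refine ⟨γ * (ModularGroup.S * ModularGroup.T ^ j)⁻¹, ?_, j, ?_⟩
    · rw [CongruenceSubgroup.Gamma0_mem]
      have hentry : (γ * (ModularGroup.S * ModularGroup.T ^ j)⁻¹) 1 0 = γ 1 0 * j - γ 1 1 := by
        rw [mul_inv_rev, ← zpow_neg]
        have hS : (ModularGroup.S⁻¹ : SL(2, ℤ)) = ⟨!![0, 1; -1, 0], by norm_num [Matrix.det_fin_two_of]⟩ := by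
          ext i k
          fin_cases i <;> fin_cases k <;>
            simp [ModularGroup.S, Matrix.SpecialLinearGroup.coe_inv, Matrix.adjugate_fin_two]
        rw [Matrix.SpecialLinearGroup.coe_mul, Matrix.SpecialLinearGroup.coe_mul,
          ModularGroup.coe_T_zpow, hS]
        simp [Matrix.mul_apply, Fin.sum_univ_two]
        ring
      rw [hentry]
      push_cast
      rw [hjp, mul_comm (((γ 1 1 : ℤ) : ZMod p)), ← mul_assoc, mul_inv_cancel₀ h0, one_mul,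
        sub_self]
    · group

/-! ### The modular form -/

theorem neZero_of_prime (p : ℕ) [hp : Fact p.Prime] : NeZero p := ⟨hp.out.ne_zero⟩

theorem isBoundedAtImInfty_eisFun_slash (p : ℕ) [Fact p.Prime] (γ : SL(2, ℤ)) :
    IsBoundedAtImInfty (eisFun p ∣[(2 : ℤ)] γ) := by
  have := neZero_of_prime p
  rcases exists_coset_rep p γ with hγ | ⟨g, hg, j, rfl⟩
  · rw [eisFun_slash p hγ]
    exact isBoundedAtImInfty_eisFun p
  · rw [SlashAction.slash_mul, SlashAction.slash_mul, eisFun_slash p hg, eisFun_slash_S]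
    exact isBoundedAtImInfty_slash_T_zpow 2 (isBoundedAtImInfty_eisS p) j

/-- The weight-2 Eisenstein series of level `Γ₀(p)`, `p` prime:
`(p E₂(pτ) - E₂(τ)) / 24 = (p-1)/24 + ∑ σ'(n) qⁿ`. -/
noncomputable def eis (p : ℕ) [Fact p.Prime] : ModularForm (G0 p) 2 :=
  haveI := neZero_of_prime p
  { toFun := eisFun p
    slash_action_eq' := by
      intro γ hγ
      obtain ⟨g, hg, rfl⟩ := hγ
      exact eisFun_slash p hg
    holo' := mdiff_eisFun p
    bdd_at_cusps' := by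
      intro c hc
      rw [Subgroup.IsArithmetic.isCusp_iff_isCusp_SL2Z] at hc
      rw [OnePoint.isBoundedAt_iff_forall_SL2Z hc]
      intro γ _
      exact isBoundedAtImInfty_eisFun_slash p γ }

@[simp]
theorem coe_eis (p : ℕ) [Fact p.Prime] : (eis p : ℍ → ℂ) = eisFun p := rfl

theorem isMF_eisFun (p : ℕ) [Fact p.Prime] : IsMF (G0 p) 2 (eisFun p) := ⟨eis p, rfl⟩

end Fermat.Agent.S16.Eis
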