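import Mathlib
import Fermat.Agent.S23.Defs
import Fermat.Agent.S23.Basic
import Fermat.Agent.S23.Unbundled
import Fermat.Agent.S16.Eis.Form

/-!
# T16 / EIS: the `q`-expansion of the weight-2 Eisenstein series of level `Γ₀(p)`

`(N E₂(Nτ) - E₂(τ)) / 24 = (N-1)/24 + ∑_{n ≥ 1} σ'(n) qⁿ`, `σ'(n) = ∑_{d ∣ n, N ∤ d} d`.
-/

set_option autoImplicit false

open UpperHalfPlane ModularForm EisensteinSeries Complex Filter Topology
open scoped MatrixGroups ModularForm Manifold Real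
open Fermat.Agent.S23

namespace Fermat.Agent.S16.Eis

local notation "𝕢" => Function.Periodic.qParam

/-- The `q`-expansion coefficients of `E₂`. -/
noncomputable def e2c (m : ℕ) : ℂ := if m = 0 then 1 else -24 * (ArithmeticFunction.sigma 1 m : ℂ)

theorem hasSum_E2 (τ : ℍ) : HasSum (fun m : ℕ => e2c m • 𝕢 1 (τ : ℂ) ^ m) (E2 τ) := by
  have h := hasSum_qExpansion_E2 (z := τ)
  simpa only [e2c, Function.Periodic.qParam, ofReal_one, div_one] using h

theorem qParam_heckeDiag_smul {N : ℕ} (hN : N ≠ 0) (τ : ℍ) :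
    𝕢 1 ((heckeDiagMatrix N • τ : ℍ) : ℂ) = 𝕢 1 (τ : ℂ) ^ N := by
  rw [coe_heckeDiagMatrix_smul hN, Function.Periodic.qParam, Function.Periodic.qParam,
    ← Complex.exp_nat_mul]
  congr 1
  ring

/-- The `q`-expansion coefficients of `E₂(Nτ)`. -/
noncomputable def e2Nc (N m : ℕ) : ℂ := if N ∣ m then e2c (m / N) else 0

theorem hasSum_E2N {N : ℕ} (hN : N ≠ 0) (τ : ℍ) :
    HasSum (fun m : ℕ => e2Nc N m • 𝕢 1 (τ : ℂ) ^ m) (E2N N τ) := by
  have h1 := hasSum_E2 (heckeDiagMatrix N • τ)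
  rw [qParam_heckeDiag_smul hN] at h1
  have hinj : Function.Injective (fun m : ℕ => N * m) := fun a b h =>
    Nat.eq_of_mul_eq_mul_left (Nat.pos_of_ne_zero hN) h
  rw [← hinj.hasSum_iff]
  · have h3 : ((fun m : ℕ => e2Nc N m • 𝕢 1 (τ : ℂ) ^ m) ∘ fun m : ℕ => N * m) =
        fun m : ℕ => e2c m • (𝕢 1 (τ : ℂ) ^ N) ^ m := by
      funext m
      simp only [Function.comp_apply, e2Nc, dvd_mul_right, if_true,
        Nat.mul_div_cancel_left _ (Nat.pos_of_ne_zero hN), smul_eq_mul, pow_mul]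
    rw [h3]
    exact h1
  · intro x hx
    have : ¬ N ∣ x := fun ⟨m, hm⟩ => hx ⟨m, hm.symm⟩
    simp [e2Nc, this]

/-- The `q`-expansion coefficients of `(N E₂(Nτ) - E₂(τ)) / 24`. -/
noncomputable def eisc (N m : ℕ) : ℂ := ((N : ℂ) * e2Nc N m - e2c m) / 24

theorem hasSum_eisFun {N : ℕ} (hN : N ≠ 0) (τ : ℍ) :
    HasSum (fun m : ℕ => eisc N m • 𝕢 1 (τ : ℂ) ^ m) (eisFun N τ) := by
  have h1 := ((hasSum_E2N hN τ).mul_left (N : ℂ)).sub (hasSum_E2 τ)
  have h2 := h1.div_const 24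
  have h3 : (fun m : ℕ => eisc N m • 𝕢 1 (τ : ℂ) ^ m) =
      fun i : ℕ => ((N : ℂ) * e2Nc N i • 𝕢 1 (τ : ℂ) ^ i - e2c i • 𝕢 1 (τ : ℂ) ^ i) / 24 := by
    funext m
    simp only [eisc, smul_eq_mul]
    ring
  rw [h3]
  exact h2

/-- `σ'(n)`: the sum of the divisors of `n` not divisible by `N`. -/
def sigmaP (N n : ℕ) : ℕ := ∑ d ∈ n.divisors.filter (fun d => ¬ N ∣ d), d

theorem sigma_eq_sigmaP_add (N n : ℕ) :
    ArithmeticFunction.sigma 1 n = sigmaP N n + ∑ d ∈ n.divisors.filter (fun d => N ∣ d), d := by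
  rw [ArithmeticFunction.sigma_one_apply, sigmaP, add_comm,
    Finset.sum_filter_add_sum_filter_not]

theorem sum_divisors_filter_dvd {N : ℕ} (hN : N ≠ 0) {m : ℕ} (hm : m ≠ 0) :
    ∑ d ∈ (N * m).divisors.filter (fun d => N ∣ d), d = N * ArithmeticFunction.sigma 1 m := by
  rw [ArithmeticFunction.sigma_one_apply, Finset.mul_sum]
  refine Finset.sum_nbij' (fun d => d / N) (fun d => N * d) ?_ ?_ ?_ ?_ ?_
  · intro d hd
    rw [Finset.mem_filter, Nat.mem_divisors] at hd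
    obtain ⟨⟨hd1, _⟩, k, rfl⟩ := hd
    rw [Nat.mul_div_cancel_left _ (Nat.pos_of_ne_zero hN), Nat.mem_divisors]
    exact ⟨(Nat.mul_dvd_mul_iff_left (Nat.pos_of_ne_zero hN)).mp hd1, hm⟩
  · intro d hd
    rw [Nat.mem_divisors] at hd
    rw [Finset.mem_filter, Nat.mem_divisors]
    exact ⟨⟨Nat.mul_dvd_mul_left N hd.1, Nat.mul_ne_zero hN hm⟩, dvd_mul_right _ _⟩
  · intro d hd
    rw [Finset.mem_filter] at hd
    exact Nat.mul_div_cancel' hd.2
  · intro d _
    exact Nat.mul_div_cancel_left _ (Nat.pos_of_ne_zero hN)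
  · intro d hd
    rw [Finset.mem_filter] at hd
    exact (Nat.mul_div_cancel' hd.2).symm

theorem eisc_zero (N : ℕ) : eisc N 0 = ((N : ℂ) - 1) / 24 := by
  simp [eisc, e2Nc, e2c]

theorem eisc_pos {N : ℕ} (hN : N ≠ 0) {n : ℕ} (hn : n ≠ 0) : eisc N n = (sigmaP N n : ℂ) := by
  unfold eisc e2Nc
  by_cases hdvd : N ∣ n
  · obtain ⟨m, rfl⟩ := hdvd
    have hm : m ≠ 0 := fun h => hn (by rw [h, mul_zero])
    rw [if_pos (dvd_mul_right _ _), Nat.mul_div_cancel_left _ (Nat.pos_of_ne_zero hN)]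
    have h1 := sigma_eq_sigmaP_add N (N * m)
    rw [sum_divisors_filter_dvd hN hm] at h1
    unfold e2c
    rw [if_neg hm, if_neg hn, h1]
    push_cast
    ring
  · rw [if_neg hdvd]
    have h1 := sigma_eq_sigmaP_add N n
    have h2 : n.divisors.filter (fun d => N ∣ d) = ∅ := by
      rw [Finset.filter_eq_empty_iff]
      intro d hd hNd
      exact hdvd (hNd.trans (Nat.mem_divisors.mp hd).1)
    rw [h2, Finset.sum_empty, add_zero] at h1
    unfold e2c
    rw [if_neg hn, h1]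
    ring

/-- The `q`-expansion of the Eisenstein series `eis p`. -/
theorem qExpansion_eis_coeff (p : ℕ) [Fact p.Prime] (n : ℕ) :
    (qExpansion 1 (eis p)).coeff n = eisc p n := by
  have hp : p ≠ 0 := (Fact.out : p.Prime).ne_zero
  exact (ModularFormClass.qExpansion_coeff_unique (f := eis p) (c := eisc p) one_pos
    (one_mem_strictPeriods_G0 p) (fun τ => hasSum_eisFun hp τ) n).symm

theorem qExpansion_eis_coeff_zero (p : ℕ) [Fact p.Prime] :
    (qExpansion 1 (eis p)).coeff 0 = ((p : ℂ) - 1) / 24 := by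
  rw [qExpansion_eis_coeff, eisc_zero]

theorem qExpansion_eis_coeff_pos (p : ℕ) [Fact p.Prime] {n : ℕ} (hn : n ≠ 0) :
    (qExpansion 1 (eis p)).coeff n = (sigmaP p n : ℂ) := by
  rw [qExpansion_eis_coeff, eisc_pos (Fact.out : p.Prime).ne_zero hn]

end Fermat.Agent.S16.Eis
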