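import Mathlib
import Fermat.Prelude.Def_FLTPrelim_Modularity
import Fermat.Agent.S16.Eis.QExp

/-!
# T16 / EIS extras

* Fricke sign: `eisFun N ∣[2] S = τ ↦ -(1/N) * eisFun N (τ/N)`.
* arithmetic of `sigmaP` (`σ'`): values at `1`, primes, `p`; `sigmaP p (p * n) = sigmaP p n`;
  multiplicativity; prime power recursion.
* the prelude `ModularFormClass.qCoeff` shape of the `q`-expansion of `eis p`.
* `eisSub p f := eis p - f` for a cusp form `f`, with its `q`-expansion.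
-/

set_option autoImplicit false

open UpperHalfPlane ModularForm EisensteinSeries Complex Filter Topology
open scoped MatrixGroups ModularForm Manifold Real
open Fermat.Agent.S23

namespace Fermat.Agent.S16.Eis

/-! ### Fricke sign -/

theorem E2N_divN (N : ℕ) (τ : ℍ) : E2N N (divN N τ) = E2 τ := by
  unfold E2N
  rw [heckeDiag_smul_divN]

/-- `E | W_N = -E`: the slash of `eisFun N` by `S` is `-(1/N) · eisFun N (τ / N)`. -/
theorem eisS_eq_neg {N : ℕ} (hN : N ≠ 0) (τ : ℍ) :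
    eisS N τ = -(1 / (N : ℂ)) * eisFun N (divN N τ) := by
  have hN' : (N : ℂ) ≠ 0 := Nat.cast_ne_zero.mpr hN
  unfold eisS eisFun
  rw [E2N_divN]
  field_simp
  ring

theorem eisFun_slash_S_apply (N : ℕ) [NeZero N] (τ : ℍ) :
    (eisFun N ∣[(2 : ℤ)] ModularGroup.S) τ = -(1 / (N : ℂ)) * eisFun N (divN N τ) := by
  rw [eisFun_slash_S, eisS_eq_neg (NeZero.ne N)]

/-! ### Arithmetic of `sigmaP` -/

theorem sigmaP_def (N n : ℕ) :
    sigmaP N n = ∑ d ∈ n.divisors, if N ∣ d then 0 else d := by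
  rw [sigmaP, Finset.sum_filter]
  refine Finset.sum_congr rfl fun d _ => ?_
  by_cases h : N ∣ d <;> simp [h]

theorem sigmaP_zero (N : ℕ) : sigmaP N 0 = 0 := by
  simp [sigmaP]

theorem sigmaP_one {N : ℕ} (hN : N ≠ 1) : sigmaP N 1 = 1 := by
  have : ¬ N ∣ 1 := fun h => hN (Nat.dvd_one.mp h)
  simp [sigmaP, Finset.filter_singleton, this]

theorem sigmaP_of_not_dvd {p : ℕ} {n : ℕ} (hn : ¬ p ∣ n) :
    sigmaP p n = ArithmeticFunction.sigma 1 n := by
  rw [ArithmeticFunction.sigma_one_apply, sigmaP, Finset.filter_true_of_mem]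
  intro d hd hpd
  exact hn (hpd.trans (Nat.mem_divisors.mp hd).1)

/-- `U_p`-invariance of the coefficients: `σ'(p n) = σ'(n)`. -/
theorem sigmaP_mul_self {p : ℕ} (hp : p.Prime) (n : ℕ) : sigmaP p (p * n) = sigmaP p n := by
  rcases eq_or_ne n 0 with rfl | hn
  · simp
  unfold sigmaP
  congr 1
  ext d
  simp only [Finset.mem_filter, Nat.mem_divisors]
  constructor
  · rintro ⟨⟨hd, _⟩, hpd⟩
    refine ⟨⟨?_, hn⟩, hpd⟩
    exact (Nat.Coprime.dvd_mul_left ((Nat.Prime.coprime_iff_not_dvd hp).mpr hpd).symm).mp hd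
  · rintro ⟨⟨hd, _⟩, hpd⟩
    exact ⟨⟨hd.mul_left p, Nat.mul_ne_zero hp.ne_zero hn⟩, hpd⟩

theorem sigmaP_self_mul {p : ℕ} (hp : p.Prime) (n : ℕ) : sigmaP p (n * p) = sigmaP p n := by
  rw [mul_comm, sigmaP_mul_self hp]

theorem sigmaP_self {p : ℕ} (hp : p.Prime) : sigmaP p p = 1 := by
  have := sigmaP_mul_self hp 1
  rwa [mul_one, sigmaP_one hp.ne_one] at this

theorem sigmaP_self_pow {p : ℕ} (hp : p.Prime) (r : ℕ) : sigmaP p (p ^ r) = 1 := by
  induction r with
  | zero => rw [pow_zero, sigmaP_one hp.ne_one]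
  | succ r ih => rw [pow_succ, sigmaP_self_mul hp, ih]

theorem sigmaP_prime {p : ℕ} (hp : p.Prime) {l : ℕ} (hl : l.Prime) (hne : l ≠ p) :
    sigmaP p l = l + 1 := by
  have h : ¬ p ∣ l := fun h => hne ((Nat.prime_dvd_prime_iff_eq hp hl).mp h).symm
  rw [sigmaP_of_not_dvd h, ArithmeticFunction.sigma_one_apply, hl.sum_divisors, add_comm]

/-- The arithmetic function `d ↦ d` if `N ∤ d`, `0` otherwise. -/
def idNotDvd (N : ℕ) : ArithmeticFunction ℕ :=
  ⟨fun d => if N ∣ d then 0 else d, by simp⟩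

theorem idNotDvd_apply (N d : ℕ) : idNotDvd N d = if N ∣ d then 0 else d := rfl

theorem isMultiplicative_idNotDvd {p : ℕ} (hp : p.Prime) :
    (idNotDvd p).IsMultiplicative := by
  refine ⟨?_, ?_⟩
  · have : ¬ p ∣ 1 := hp.one_lt.ne' ∘ Nat.dvd_one.mp
    simp [idNotDvd_apply, this]
  · intro m n _
    simp only [idNotDvd_apply, hp.dvd_mul]
    by_cases hm : p ∣ m <;> by_cases hn : p ∣ n <;> simp [hm, hn]

theorem sigmaP_eq_mul_zeta (N n : ℕ) :
    sigmaP N n = (idNotDvd N * ArithmeticFunction.zeta) n := by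
  rw [ArithmeticFunction.mul_zeta_apply, sigmaP_def]
  rfl

/-- `σ'` is multiplicative. -/
theorem sigmaP_mul_of_coprime {p : ℕ} (hp : p.Prime) {m n : ℕ} (h : m.Coprime n) :
    sigmaP p (m * n) = sigmaP p m * sigmaP p n := by
  have hmul : (idNotDvd p * ArithmeticFunction.zeta).IsMultiplicative :=
    (isMultiplicative_idNotDvd hp).mul ArithmeticFunction.isMultiplicative_zeta
  rw [sigmaP_eq_mul_zeta, sigmaP_eq_mul_zeta, sigmaP_eq_mul_zeta]
  exact hmul.map_mul_of_coprime h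

/-- The Hecke recursion at a prime `l ≠ p`. -/
theorem sigmaP_prime_pow_succ_succ {p : ℕ} (hp : p.Prime) {l : ℕ} (hl : l.Prime) (hne : l ≠ p)
    (r : ℕ) :
    sigmaP p (l ^ (r + 2)) + l * sigmaP p (l ^ r) = sigmaP p l * sigmaP p (l ^ (r + 1)) := by
  have h : ∀ k, ¬ p ∣ l ^ k := fun k hk =>
    hne ((Nat.prime_dvd_prime_iff_eq hp hl).mp (hp.dvd_of_dvd_pow hk)).symm
  have hs : ∀ k, sigmaP p (l ^ k) = ∑ i ∈ Finset.range (k + 1), l ^ i := fun k => by
    rw [sigmaP_of_not_dvd (h k), ArithmeticFunction.sigma_one_apply,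
      Nat.sum_divisors_prime_pow hl]
  have hl1 : sigmaP p l = l + 1 := sigmaP_prime hp hl hne
  rw [hs, hs, hs, hl1, Finset.sum_range_succ (fun i => l ^ i) (r + 2),
    Finset.sum_range_succ (fun i => l ^ i) (r + 1)]
  ring

/-! ### The prelude `qCoeff` shape -/

theorem qCoeff_eis_zero (p : ℕ) [Fact p.Prime] :
    ModularFormClass.qCoeff (eis p) 0 = ((p : ℂ) - 1) / 24 :=
  qExpansion_eis_coeff_zero p

theorem qCoeff_eis_pos (p : ℕ) [Fact p.Prime] {n : ℕ} (hn : n ≠ 0) :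
    ModularFormClass.qCoeff (eis p) n = (sigmaP p n : ℂ) :=
  qExpansion_eis_coeff_pos p hn

/-! ### `E - f` for a cusp form `f` -/

/-- `eis p - f` as a modular form, for a cusp form `f` of level `Γ₀(p)`. -/
noncomputable def eisSub (p : ℕ) [Fact p.Prime] (f : CuspForm (G0 p) 2) : ModularForm (G0 p) 2 :=
  eis p - ModularFormClass.modularForm f

theorem coe_eisSub (p : ℕ) [Fact p.Prime] (f : CuspForm (G0 p) 2) :
    ⇑(eisSub p f) = eisFun p - ⇑f := by
  rw [eisSub, FunLike.coe_sub, coe_eis]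
  rfl

theorem qExpansion_eisSub (p : ℕ) [Fact p.Prime] (f : CuspForm (G0 p) 2) :
    qExpansion 1 (eisSub p f) = qExpansion 1 (eis p) - qExpansion 1 f := by
  have h := ModularForm.qExpansion_sub one_pos (one_mem_strictPeriods_G0 p) (eis p) f
  rw [← h]
  congr 1

theorem qExpansion_eisSub_coeff_zero (p : ℕ) [Fact p.Prime] (f : CuspForm (G0 p) 2) :
    (qExpansion 1 (eisSub p f)).coeff 0 = ((p : ℂ) - 1) / 24 := by
  rw [qExpansion_eisSub, map_sub, qExpansion_eis_coeff_zero,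
    CuspFormClass.qExpansion_coeff_zero f one_pos (one_mem_strictPeriods_G0 p), sub_zero]

theorem qExpansion_eisSub_coeff_pos (p : ℕ) [Fact p.Prime] (f : CuspForm (G0 p) 2) {n : ℕ}
    (hn : n ≠ 0) :
    (qExpansion 1 (eisSub p f)).coeff n = (sigmaP p n : ℂ) - (qExpansion 1 f).coeff n := by
  rw [qExpansion_eisSub, map_sub, qExpansion_eis_coeff_pos p hn]

end Fermat.Agent.S16.Eis
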