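import Mathlib
import Fermat.Agent.S16.Eis.Extras
import Fermat.Agent.S16.Arith.Main

/-!
# T16 / EIS bridge to ARITH

Discharges the hypothesis `hE` of `Fermat.Agent.S16.Arith.upper` with the Eisenstein series
`eis p`, and identifies `Arith.sigP` with `Eis.sigmaP`.
-/

set_option autoImplicit false

open UpperHalfPlane ModularForm

namespace Fermat.Agent.S16.Eis

theorem sigP_eq_sigmaP (p k : ℕ) : Fermat.Agent.S16.Arith.sigP p k = ((sigmaP p k : ℕ) : ℤ) := by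
  rw [Fermat.Agent.S16.Arith.sigP, sigmaP, Nat.cast_sum]

/-- The Eisenstein input `hE` of `Arith.upper` (valid for every prime `p`). -/
theorem exists_eis_arith (p : ℕ) [Fact p.Prime] :
    ∃ E : ModularForm (CongruenceSubgroup.Gamma0 p) 2,
      ModularFormClass.qCoeff (⇑E) 0 = ((p : ℂ) - 1) / 24 ∧
      ∀ k : ℕ, 1 ≤ k →
        ModularFormClass.qCoeff (⇑E) k = (Fermat.Agent.S16.Arith.sigP p k : ℂ) := by
  refine ⟨eis p, qCoeff_eis_zero p, fun k hk => ?_⟩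
  rw [qCoeff_eis_pos p (Nat.one_le_iff_ne_zero.mp hk), sigP_eq_sigmaP]
  norm_cast

/-- `Arith.upper` with the Eisenstein hypothesis discharged. -/
theorem upper_of_noConstInt (p : ℕ) [Fact p.Prime]
    (h5 : 5 ≤ p → ∀ l : ℕ, l.Prime → 5 ≤ l → l ≠ p → Fermat.Agent.S16.NoConstInt p l 1)
    (hpp : 5 ≤ p → Fermat.Agent.S16.NoConstInt p p 1)
    (h3a : 5 ≤ p → p % 3 = 1 → Fermat.Agent.S16.NoConstInt p 3 1)
    (h3b : 5 ≤ p → p % 3 = 2 → Fermat.Agent.S16.NoConstInt p 3 2)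
    (h2a : 5 ≤ p → p % 4 = 1 → Fermat.Agent.S16.NoConstInt p 2 2)
    (h2b3 : 5 ≤ p → p % 8 = 3 → Fermat.Agent.S16.NoConstInt p 2 3)
    (h2b7 : 5 ≤ p → p % 8 = 7 → Fermat.Agent.S16.NoConstInt p 2 3) :
    ∀ M : ℕ, Fermat.Agent.S16.Arith.CongA p M → M ∣ ModularCurve.eisensteinNumerator p :=
  Fermat.Agent.S16.Arith.upper p (fun _ => exists_eis_arith p) h5 hpp h3a h3b h2a h2b3 h2b7

end Fermat.Agent.S16.Eis
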