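import Mathlib
import Fermat.Agent.S16.Eis.Bridge
import Fermat.Agent.S20.M2S2
import Fermat.Agent.S23.FinDim

/-!
# T16 / Θ-ASM: cusp-form criterion on `Γ₀(p)` and LOWER from a theta form

* `isCuspForm_of_coeff_zero`: a weight-2 modular form on `Γ₀(p)` (`p` prime) whose `q`-expansion
  at `∞` has vanishing constant term is a cusp form (`dim M₂ ≤ dim S₂ + 1` and `a₀(E) ≠ 0`).
* `lower_of_thetaForm`: from a form `Θ ∈ M₂(Γ₀(p))` with integral `q`-expansion `1 + 2 ∑ bₙ qⁿ`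
  we get `Arith.CongA p (eisensteinNumerator p)`.
-/

set_option autoImplicit false

open UpperHalfPlane ModularForm
open scoped MatrixGroups ModularForm Manifold
open Fermat.Agent.S23

namespace Fermat.Agent.S16.Eis

/-- The constant term of the `q`-expansion at `∞` as a linear functional. -/
noncomputable def a0Lin (N : ℕ) : ModularForm (G0 N) 2 →ₗ[ℂ] ℂ where
  toFun G := (qExpansion 1 G).coeff 0
  map_add' G H := by
    rw [FunLike.coe_add, ModularForm.qExpansion_add one_pos (one_mem_strictPeriods_G0 N),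
      map_add]
  map_smul' c G := by
    rw [FunLike.coe_smul, ModularForm.qExpansion_smul one_pos (one_mem_strictPeriods_G0 N),
      map_smul, RingHom.id_apply]

theorem a0Lin_apply (N : ℕ) (G : ModularForm (G0 N) 2) :
    a0Lin N G = (qExpansion 1 G).coeff 0 := rfl

theorem cuspCount_prime {p : ℕ} (hp : p.Prime) : ModularCurve.cuspCount p = 2 := by
  unfold ModularCurve.cuspCount
  rw [hp.sum_divisors]
  simp [Nat.div_self hp.pos]

theorem cuspFormSubmodule_le_ker_a0Lin (N : ℕ) :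
    ModularForm.cuspFormSubmodule (G0 N) 2 ≤ LinearMap.ker (a0Lin N) := by
  rintro _ ⟨f, rfl⟩
  rw [LinearMap.mem_ker, a0Lin_apply]
  exact CuspFormClass.qExpansion_coeff_zero f one_pos (one_mem_strictPeriods_G0 N)

/-- **Cusp-form criterion**: in weight 2 and prime level, a modular form with vanishing constant
term at `∞` is a cusp form. -/
theorem isCuspForm_of_coeff_zero (p : ℕ) [Fact p.Prime] (G : ModularForm (G0 p) 2)
    (h0 : (qExpansion 1 G).coeff 0 = 0) : ModularForm.IsCuspForm G := by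
  have hp : p.Prime := Fact.out
  have : NeZero p := ⟨hp.ne_zero⟩
  have : FiniteDimensional ℂ (CuspForm (G0 p) 2) := finiteDimensional_cuspForm p 2
  have : FiniteDimensional ℂ (ModularForm (G0 p) 2) :=
    Fermat.Agent.S20_helper10.finiteDimensional_modularForm
  -- dimension count
  have hK6 := Fermat.Agent.S20.M2S2.finrank_modularForm_add_one_le p
  rw [cuspCount_prime hp] at hK6
  have hS : Module.finrank ℂ (ModularForm.cuspFormSubmodule (G0 p) 2) =
      Module.finrank ℂ (CuspForm (G0 p) 2) :=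
    LinearMap.finrank_range_of_inj CuspForm.toModularFormₗ_injective
  -- `a0Lin` is surjective
  have hE : a0Lin p (eis p) ≠ 0 := by
    rw [a0Lin_apply, qExpansion_eis_coeff_zero]
    have h1 : (1 : ℝ) < p := by exact_mod_cast hp.one_lt
    have h2 : ((p : ℂ) - 1) ≠ 0 := by
      intro h
      have h3 : (p : ℂ) = 1 := sub_eq_zero.mp h
      have h4 : (p : ℝ) = 1 := by exact_mod_cast h3
      linarith
    exact div_ne_zero h2 (by norm_num)
  have hsurj : LinearMap.range (a0Lin p) = ⊤ := by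
    apply LinearMap.range_eq_top.mpr
    intro c
    refine ⟨(c / a0Lin p (eis p)) • eis p, ?_⟩
    rw [map_smul, smul_eq_mul, div_mul_cancel₀ _ hE]
  have hrn := LinearMap.finrank_range_add_finrank_ker (a0Lin p)
  rw [hsurj, finrank_top, Module.finrank_self] at hrn
  have hle : Module.finrank ℂ (LinearMap.ker (a0Lin p)) ≤
      Module.finrank ℂ (ModularForm.cuspFormSubmodule (G0 p) 2) := by
    rw [hS]; omega
  have heq : ModularForm.cuspFormSubmodule (G0 p) 2 = LinearMap.ker (a0Lin p) :=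
    Submodule.eq_of_le_of_finrank_le (cuspFormSubmodule_le_ker_a0Lin p) hle
  show G ∈ ModularForm.cuspFormSubmodule (G0 p) 2
  rw [heq, LinearMap.mem_ker, a0Lin_apply]
  exact h0

theorem exists_cuspForm_of_coeff_zero (p : ℕ) [Fact p.Prime] (G : ModularForm (G0 p) 2)
    (h0 : (qExpansion 1 G).coeff 0 = 0) : ∃ f : CuspForm (G0 p) 2, ⇑f = ⇑G := by
  obtain ⟨f, hf⟩ := isCuspForm_of_coeff_zero p G h0
  exact ⟨f, by rw [← hf]; rfl⟩

/-! ### LOWER from a theta form -/

/-- The `n`-th `q`-expansion coefficient as a linear functional. -/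
noncomputable def qLin (N n : ℕ) : ModularForm (G0 N) 2 →ₗ[ℂ] ℂ where
  toFun G := (qExpansion 1 G).coeff n
  map_add' G H := by
    rw [FunLike.coe_add, ModularForm.qExpansion_add one_pos (one_mem_strictPeriods_G0 N),
      map_add]
  map_smul' c G := by
    rw [FunLike.coe_smul, ModularForm.qExpansion_smul one_pos (one_mem_strictPeriods_G0 N),
      map_smul, RingHom.id_apply]

theorem qLin_apply (N n : ℕ) (G : ModularForm (G0 N) 2) :
    qLin N n G = (qExpansion 1 G).coeff n := rfl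

/-- **LOWER from Θ**: a form `Θ ∈ M₂(Γ₀(p))` with `q`-expansion `1 + 2 ∑ bₙ qⁿ`, `bₙ ∈ ℤ`, yields a
cusp form in the integral lattice congruent to `∑ σ'(k) qᵏ` modulo `eisensteinNumerator p`. -/
theorem lower_of_thetaForm (p : ℕ) [Fact p.Prime]
    (hΘ : ∃ Θ : ModularForm (CongruenceSubgroup.Gamma0 p) 2,
      (qExpansion 1 Θ).coeff 0 = 1 ∧
      ∀ n : ℕ, 1 ≤ n → ∃ b : ℤ, (qExpansion 1 Θ).coeff n = 2 * (b : ℂ)) :
    Fermat.Agent.S16.Arith.CongA p (ModularCurve.eisensteinNumerator p) := by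
  obtain ⟨Θ, hΘ0, hΘk⟩ := hΘ
  have hp : p.Prime := Fact.out
  have hnν : ModularCurve.eisensteinNumerator p * Nat.gcd (p - 1) 12 = p - 1 :=
    Fermat.Agent.S16.Arith.num_mul_gcd p
  have hbez : ((Nat.gcd (p - 1) 12 : ℕ) : ℤ) =
      ((p - 1 : ℕ) : ℤ) * Nat.gcdA (p - 1) 12 + ((12 : ℕ) : ℤ) * Nat.gcdB (p - 1) 12 :=
    Nat.gcd_eq_gcd_ab (p - 1) 12
  generalize ModularCurve.eisensteinNumerator p = n at hnν ⊢
  generalize Nat.gcd (p - 1) 12 = ν at hnν hbez
  generalize Nat.gcdA (p - 1) 12 = α at hbez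
  generalize Nat.gcdB (p - 1) 12 = β at hbez
  have hp1 : ((p - 1 : ℕ) : ℂ) = (p : ℂ) - 1 := by
    rw [Nat.cast_sub hp.one_le, Nat.cast_one]
  have hnνC : (n : ℂ) * (ν : ℂ) = (p : ℂ) - 1 := by
    rw [← hp1, ← hnν]; push_cast; ring
  have hbezC : (ν : ℂ) = ((p : ℂ) - 1) * (α : ℂ) + 12 * (β : ℂ) := by
    rw [← hp1]
    have := congrArg (fun z : ℤ => (z : ℂ)) hbez
    push_cast at this
    exact this
  -- the form `f = E - n (α E + (β / 2) Θ)`
  let Gf : ModularForm (G0 p) 2 :=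
    eis p - (n : ℂ) • ((α : ℂ) • eis p + ((β : ℂ) / 2) • Θ)
  have hcoeff : ∀ k : ℕ, (qExpansion 1 Gf).coeff k =
      (qExpansion 1 (eis p)).coeff k - (n : ℂ) * ((α : ℂ) * (qExpansion 1 (eis p)).coeff k
        + ((β : ℂ) / 2) * (qExpansion 1 Θ).coeff k) := by
    intro k
    rw [← qLin_apply, ← qLin_apply, ← qLin_apply]
    show qLin p k (eis p - (n : ℂ) • ((α : ℂ) • eis p + ((β : ℂ) / 2) • Θ)) = _
    rw [map_sub, map_smul, map_add, map_smul, map_smul, smul_eq_mul, smul_eq_mul, smul_eq_mul]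
  have h0 : (qExpansion 1 Gf).coeff 0 = 0 := by
    rw [hcoeff, qExpansion_eis_coeff_zero, hΘ0]
    have : ((p : ℂ) - 1) / 24 - (n : ℂ) * ((α : ℂ) * (((p : ℂ) - 1) / 24) + (β : ℂ) / 2 * 1) =
        (((p : ℂ) - 1) - (n : ℂ) * (((p : ℂ) - 1) * (α : ℂ) + 12 * (β : ℂ))) / 24 := by ring
    rw [this, ← hbezC, hnνC, sub_self, zero_div]
  obtain ⟨f, hf⟩ := exists_cuspForm_of_coeff_zero p Gf h0
  have hk : ∀ k : ℕ, 1 ≤ k → ∃ b : ℤ, ModularFormClass.qCoeff (⇑f) k =
      (((sigmaP p k : ℕ) : ℤ) - (n : ℤ) * (α * ((sigmaP p k : ℕ) : ℤ) + β * b : ℤ) : ℤ) := by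
    intro k hk1
    obtain ⟨b, hb⟩ := hΘk k hk1
    refine ⟨b, ?_⟩
    rw [ModularFormClass.qCoeff, hf, hcoeff, qExpansion_eis_coeff_pos p (Nat.one_le_iff_ne_zero.mp hk1),
      hb]
    push_cast
    ring
  refine ⟨f, Submodule.subset_span ?_, ?_⟩
  · intro k
    rcases Nat.eq_zero_or_pos k with rfl | hk1
    · refine ⟨0, ?_⟩
      rw [ModularFormClass.qCoeff, hf, h0, Int.cast_zero]
    · obtain ⟨b, hb⟩ := hk k hk1
      exact ⟨_, hb⟩
  · intro k hk1
    obtain ⟨b, hb⟩ := hk k hk1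
    refine ⟨_, hb, ?_⟩
    rw [sigP_eq_sigmaP]
    exact Int.modEq_iff_dvd.mpr ⟨α * ((sigmaP p k : ℕ) : ℤ) + β * b, by ring⟩

/-- `CongA p 1` holds trivially (take `f = 0`). -/
theorem congA_one (p : ℕ) : Fermat.Agent.S16.Arith.CongA p 1 := by
  refine ⟨0, Submodule.zero_mem _, fun k _ => ⟨0, ?_, ?_⟩⟩
  · rw [ModularFormClass.qCoeff]
    have : (⇑(0 : CuspForm (CongruenceSubgroup.Gamma0 p) 2) : ℍ → ℂ) = 0 := rfl
    rw [this, qExpansion_zero, map_zero, Int.cast_zero]
  · rw [Nat.cast_one]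
    exact Int.modEq_one

/-- **LOWER**, assuming the theta form for odd `p` (the conclusion of
`Theta.Skeleton.exists_thetaForm`). -/
theorem lower (p : ℕ) [Fact p.Prime]
    (hΘ : p ≠ 2 → ∃ Θ : ModularForm (CongruenceSubgroup.Gamma0 p) 2,
      (qExpansion 1 Θ).coeff 0 = 1 ∧
      ∀ n : ℕ, 1 ≤ n → ∃ b : ℤ, (qExpansion 1 Θ).coeff n = 2 * (b : ℂ)) :
    Fermat.Agent.S16.Arith.CongA p (ModularCurve.eisensteinNumerator p) := by
  by_cases h2 : p = 2
  · subst h2
    have : ModularCurve.eisensteinNumerator 2 = 1 := by decide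
    rw [this]
    exact congA_one 2
  · exact lower_of_thetaForm p (hΘ h2)

end Fermat.Agent.S16.Eis
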