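import Fermat.Agent.S16.Eis.Lower
import Fermat.Agent.S16.Theta.ThetaForm
import Fermat.Agent.S16.Theta.LatticeTheta

/-!
# T16 / LOWER via the theta route

`lower_theta p : Arith.CongA p (eisensteinNumerator p)` for every prime `p`, unconditionally:
the theta series of a quaternary lattice of level `p` (`Theta/*`) is a form
`Θ ∈ M₂(Γ₀(p))` with `q`-expansion `1 + 2 ∑ bₙ qⁿ`, and `Eis.lower` turns it into the congruence.
-/

set_option autoImplicit false

namespace Fermat.Agent.S16.Eis

/-- LOWER from the existence of the Weil data of every quaternary lattice of level `p`. -/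
theorem lower_of_weilDataExists (p : ℕ) [Fact p.Prime]
    (h : p ≠ 2 → Fermat.Agent.S16.Theta.WeilDataExists p) :
    Fermat.Agent.S16.Arith.CongA p (ModularCurve.eisensteinNumerator p) :=
  lower p (fun h2 =>
    Fermat.Agent.S16.Theta.exists_thetaForm_of_weilDataExists p Fact.out h2 (h h2))

/-- **LOWER** (theta route), unconditional. -/
theorem lower_theta (p : ℕ) [Fact p.Prime] :
    Fermat.Agent.S16.Arith.CongA p (ModularCurve.eisensteinNumerator p) :=
  lower_of_weilDataExists p
    (fun _ L => Fermat.Agent.S16.Theta.exists_weilData L Fact.out)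

end Fermat.Agent.S16.Eis
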